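/-
helper20: common eigenvectors of a commutative ring of operators whose character has kernel
inside a given prime ideal (the linear-algebra core of the Deligne–Serre lifting lemma).
-/
import Mathlib

set_option autoImplicit false

namespace Fermat.Agent.H20

open Module

variable {K : Type*} [Field K] [IsAlgClosed K] {V : Type*} [AddCommGroup V] [Module K V]
  [FiniteDimensional K V]

theorem exists_eigenvector_ker_le_prime_aux {𝕋 : Type*} [CommRing 𝕋] (ρ : 𝕋 →+* Module.End K V)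
    (𝔪 : Ideal 𝕋) [h𝔪 : 𝔪.IsPrime] :
    ∀ (n : ℕ) (W : Submodule K V), finrank K W = n →
      (∀ t : 𝕋, ∀ w ∈ W, ρ t w ∈ W) →
      (∀ y : 𝕋, (∀ w ∈ W, ρ y w = 0) → y ∈ 𝔪) →
      ∃ (ψ : 𝕋 →+* K) (v : V), v ∈ W ∧ v ≠ 0 ∧ (∀ t, ρ t v = ψ t • v) ∧ RingHom.ker ψ ≤ 𝔪 := by
  intro n
  induction n using Nat.strong_induction_on with
  | _ n ih =>
  intro W hn hstab hann
  have hWne : W ≠ ⊥ := by
    rintro rfl
    have h1 : (1 : 𝕋) ∈ 𝔪 := hann 1 (by
      intro w hw
      rw [Submodule.mem_bot] at hw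
      simp [hw])
    exact h𝔪.ne_top ((Ideal.eq_top_iff_one _).mpr h1)
  by_cases hsc : ∀ t : 𝕋, ∃ c : K, ∀ w ∈ W, ρ t w = c • w
  · -- scalar case
    choose ψ hψ using hsc
    obtain ⟨w₀, hw₀W, hw₀⟩ := Submodule.exists_mem_ne_zero_of_ne_bot hWne
    have key : ∀ c d : K, c • w₀ = d • w₀ → c = d := by
      intro c d h
      by_contra hcd
      have h0 : (c - d) • w₀ = 0 := by rw [sub_smul, h, sub_self]
      rcases smul_eq_zero.mp h0 with h1 | h1
      · exact hcd (sub_eq_zero.mp h1)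
      · exact hw₀ h1
    let ψ' : 𝕋 →+* K :=
      { toFun := ψ
        map_one' := key _ _ (by rw [← hψ 1 w₀ hw₀W]; simp)
        map_mul' := fun s t => key _ _ (by
          rw [← hψ (s * t) w₀ hw₀W, map_mul, Module.End.mul_apply, hψ t w₀ hw₀W, map_smul,
            hψ s w₀ hw₀W, smul_smul, mul_comm])
        map_zero' := key _ _ (by rw [← hψ 0 w₀ hw₀W]; simp)
        map_add' := fun s t => key _ _ (by
          rw [← hψ (s + t) w₀ hw₀W, map_add, LinearMap.add_apply, hψ s w₀ hw₀W, hψ t w₀ hw₀W,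
            add_smul]) }
    refine ⟨ψ', w₀, hw₀W, hw₀, fun t => hψ t w₀ hw₀W, ?_⟩
    intro y hy
    apply hann y
    intro w hw
    rw [hψ y w hw]
    have h0 : ψ y = 0 := hy
    rw [h0, zero_smul]
  · -- non-scalar case
    push Not at hsc
    obtain ⟨t₀, ht₀⟩ := hsc
    haveI : Nontrivial W := Submodule.nontrivial_iff_ne_bot.mpr hWne
    obtain ⟨c, hc⟩ := Module.End.exists_eigenvalue ((ρ t₀).restrict (hstab t₀))
    obtain ⟨w₁, hw₁⟩ := hc.exists_hasEigenvector
    have hw₁ne : (w₁ : V) ≠ 0 := fun h => hw₁.2 (Subtype.ext h)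
    have hw₁eq : ρ t₀ (w₁ : V) = c • (w₁ : V) := by
      have := hw₁.apply_eq_smul
      have h2 := congrArg Subtype.val this
      simpa using h2
    set u : Module.End K V := ρ t₀ - c • (1 : Module.End K V) with hu
    have hu_apply : ∀ x, u x = ρ t₀ x - c • x := by
      intro x; simp [hu]
    have hcomm : ∀ (t : 𝕋) (x : V), u (ρ t x) = ρ t (u x) := by
      intro t x
      rw [hu_apply, hu_apply, map_sub, map_smul]
      congr 1
      rw [← Module.End.mul_apply, ← Module.End.mul_apply, ← map_mul, ← map_mul, mul_comm]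
    have hustab : ∀ w ∈ W, u w ∈ W := by
      intro w hw
      rw [hu_apply]
      exact W.sub_mem (hstab t₀ w hw) (W.smul_mem c hw)
    set W₁ : Submodule K V := W ⊓ LinearMap.ker u with hW₁
    set W₂ : Submodule K V := W.map u with hW₂
    have hW₁lt : W₁ < W := by
      refine lt_of_le_of_ne inf_le_left ?_
      intro h
      obtain ⟨w, hwW, hw⟩ := ht₀ c
      have : w ∈ W₁ := h ▸ hwW
      have h2 : u w = 0 := (Submodule.mem_inf.mp this).2
      rw [hu_apply, sub_eq_zero] at h2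
      exact hw h2
    have hW₂le : W₂ ≤ W := by
      rintro _ ⟨w, hw, rfl⟩
      exact hustab w hw
    have hW₂lt : W₂ < W := by
      refine lt_of_le_of_ne hW₂le ?_
      intro h
      have hsurj : Function.Surjective (u.restrict hustab) := by
        rintro ⟨y, hy⟩
        have hy' : y ∈ W₂ := h ▸ hy
        obtain ⟨w, hw, rfl⟩ := hy'
        exact ⟨⟨w, hw⟩, Subtype.ext rfl⟩
      have hinj : Function.Injective (u.restrict hustab) :=
        LinearMap.injective_iff_surjective.mpr hsurj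
      have h0 : u.restrict hustab w₁ = 0 := by
        apply Subtype.ext
        simp [LinearMap.restrict_apply, hu_apply, hw₁eq]
      have : w₁ = 0 := hinj (by rw [h0, map_zero])
      exact hw₁.2 this
    have hstab₁ : ∀ t : 𝕋, ∀ w ∈ W₁, ρ t w ∈ W₁ := by
      intro t w hw
      obtain ⟨hwW, hwk⟩ := Submodule.mem_inf.mp hw
      refine Submodule.mem_inf.mpr ⟨hstab t w hwW, ?_⟩
      rw [LinearMap.mem_ker] at hwk ⊢
      rw [hcomm, hwk, map_zero]
    have hstab₂ : ∀ t : 𝕋, ∀ w ∈ W₂, ρ t w ∈ W₂ := by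
      rintro t _ ⟨w, hw, rfl⟩
      exact ⟨ρ t w, hstab t w hw, hcomm t w⟩
    have hann' : (∀ y : 𝕋, (∀ w ∈ W₁, ρ y w = 0) → y ∈ 𝔪) ∨
        (∀ y : 𝕋, (∀ w ∈ W₂, ρ y w = 0) → y ∈ 𝔪) := by
      by_contra hcon
      push Not at hcon
      obtain ⟨⟨y₁, hy₁, hy₁m⟩, ⟨y₂, hy₂, hy₂m⟩⟩ := hcon
      have h12 : y₁ * y₂ ∈ 𝔪 := by
        apply hann
        intro w hw
        rw [map_mul, Module.End.mul_apply]
        apply hy₁
        refine Submodule.mem_inf.mpr ⟨hstab y₂ w hw, ?_⟩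
        rw [LinearMap.mem_ker, hcomm]
        exact hy₂ _ ⟨w, hw, rfl⟩
      rcases h𝔪.mem_or_mem h12 with h | h
      · exact hy₁m h
      · exact hy₂m h
    rcases hann' with h1 | h2
    · obtain ⟨ψ, v, hv, hv0, hev, hker⟩ :=
        ih (finrank K W₁) (hn ▸ Submodule.finrank_lt_finrank_of_lt hW₁lt) W₁ rfl hstab₁ h1
      exact ⟨ψ, v, hW₁lt.le hv, hv0, hev, hker⟩
    · obtain ⟨ψ, v, hv, hv0, hev, hker⟩ :=
        ih (finrank K W₂) (hn ▸ Submodule.finrank_lt_finrank_of_lt hW₂lt) W₂ rfl hstab₂ h2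
      exact ⟨ψ, v, hW₂lt.le hv, hv0, hev, hker⟩

/-- A commutative ring `𝕋` acting on a finite-dimensional vector space over an algebraically
closed field, with the kernel of the action inside a prime ideal `𝔪`, has a simultaneous
eigenvector whose character has kernel inside `𝔪`. -/
theorem exists_eigenvector_ker_le_prime {𝕋 : Type*} [CommRing 𝕋] (ρ : 𝕋 →+* Module.End K V)
    (𝔪 : Ideal 𝕋) [h𝔪 : 𝔪.IsPrime] (hker : RingHom.ker ρ ≤ 𝔪) :
    ∃ (ψ : 𝕋 →+* K) (v : V), v ≠ 0 ∧ (∀ t, ρ t v = ψ t • v) ∧ RingHom.ker ψ ≤ 𝔪 := by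
  obtain ⟨ψ, v, -, hv0, hev, hk⟩ :=
    exists_eigenvector_ker_le_prime_aux ρ 𝔪 (finrank K (⊤ : Submodule K V)) ⊤ rfl
      (fun _ _ _ => Submodule.mem_top)
      (fun y hy => hker (by
        rw [RingHom.mem_ker]
        ext x
        simpa using hy x Submodule.mem_top))
  exact ⟨ψ, v, hv0, hev, hk⟩

end Fermat.Agent.H20
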