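/-
helper4: formal Hecke eigen-relations on a coefficient sequence `a : ℕ → ℂ`
imply the four `CuspForm.IsNormalizedEigenform` fields (part (A) of S49).
-/
import Mathlib
import Fermat.Prelude.Def_FLTPrelim_Modularity
import Fermat.Prelude.Def_ModularForm_HeckeOperator

set_option autoImplicit false

namespace Fermat.Agent.H4

/-- The formal relation at a prime `ℓ` with "character value" `e`:
`a (n ℓ) + [ℓ ∣ n] e a (n / ℓ) = lam * a n` for all `n`. -/
def FormalRel (a : ℕ → ℂ) (ℓ : ℕ) (e lam : ℂ) : Prop :=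
  ∀ n : ℕ, a (n * ℓ) + (if ℓ ∣ n then e * a (n / ℓ) else 0) = lam * a n

theorem FormalRel.lam_eq {a : ℕ → ℂ} {ℓ : ℕ} {e lam : ℂ} (h : FormalRel a ℓ e lam)
    (hℓ : ℓ.Prime) (h1 : a 1 = 1) : lam = a ℓ := by
  have := h 1
  rw [if_neg (by simpa using hℓ.one_lt.ne' : ¬ ℓ ∣ 1), one_mul, add_zero, h1, mul_one] at this
  exact this.symm

/-- If `a 1 = 0` and `a` satisfies a formal relation at every prime, then `a n = 0` for `n ≥ 1`. -/
theorem eq_zero_of_one_eq_zero {a : ℕ → ℂ} (e lam : ℕ → ℂ)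
    (h : ∀ ℓ : ℕ, ℓ.Prime → FormalRel a ℓ (e ℓ) (lam ℓ)) (h1 : a 1 = 0) :
    ∀ n : ℕ, 1 ≤ n → a n = 0 := by
  intro n
  induction n using Nat.strong_induction_on with
  | _ n ih =>
    intro hn
    rcases Nat.eq_or_lt_of_le hn with hn1 | hn1
    · rw [← hn1]; exact h1
    · obtain ⟨ℓ, hℓ, hℓn⟩ := Nat.exists_prime_and_dvd (by omega : n ≠ 1)
      obtain ⟨m, rfl⟩ := hℓn
      have hm0 : m ≠ 0 := by rintro rfl; simp at hn
      have hmlt : m < ℓ * m := by
        have := hℓ.one_lt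
        nlinarith [Nat.pos_of_ne_zero hm0]
      have hrel := h ℓ hℓ m
      have ham : a m = 0 := ih m hmlt (Nat.pos_of_ne_zero hm0)
      rw [ham, mul_zero] at hrel
      by_cases hd : ℓ ∣ m
      · rw [if_pos hd] at hrel
        have hq : a (m / ℓ) = 0 := by
          apply ih
          · exact lt_of_le_of_lt (Nat.div_le_self _ _) hmlt
          · exact Nat.div_pos (Nat.le_of_dvd (Nat.pos_of_ne_zero hm0) hd) hℓ.pos
        rw [hq, mul_zero, add_zero] at hrel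
        rw [mul_comm]; exact hrel
      · rw [if_neg hd, add_zero] at hrel
        rw [mul_comm]; exact hrel

section Mult

variable {a : ℕ → ℂ} (e : ℕ → ℂ)
  (h : ∀ ℓ : ℕ, ℓ.Prime → FormalRel a ℓ (e ℓ) (a ℓ)) (h1 : a 1 = 1)

include h in
theorem prime_pow_succ_succ {ℓ : ℕ} (hℓ : ℓ.Prime) (r : ℕ) :
    a (ℓ ^ (r + 2)) = a ℓ * a (ℓ ^ (r + 1)) - e ℓ * a (ℓ ^ r) := by
  have hrel := h ℓ hℓ (ℓ ^ (r + 1))
  rw [if_pos (dvd_pow_self ℓ (Nat.succ_ne_zero r))] at hrel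
  have hdiv : ℓ ^ (r + 1) / ℓ = ℓ ^ r := by
    rw [pow_succ, Nat.mul_div_cancel _ hℓ.pos]
  rw [hdiv, ← pow_succ] at hrel
  rw [← hrel]; ring

include h h1 in
theorem prime_pow_mul {ℓ : ℕ} (hℓ : ℓ.Prime) (m : ℕ) (hm : ¬ ℓ ∣ m) :
    ∀ r : ℕ, a (ℓ ^ r * m) = a (ℓ ^ r) * a m := by
  intro r
  induction r using Nat.strong_induction_on with
  | _ r ih =>
    match r with
    | 0 => simp [h1]
    | 1 =>
      have hrel := h ℓ hℓ m
      rw [if_neg hm, add_zero] at hrel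
      rw [pow_one, mul_comm]; exact hrel
    | (r + 2) =>
      have hrel := h ℓ hℓ (ℓ ^ (r + 1) * m)
      have hd : ℓ ∣ ℓ ^ (r + 1) * m := Dvd.dvd.mul_right (dvd_pow_self ℓ (Nat.succ_ne_zero r)) m
      rw [if_pos hd] at hrel
      have hdiv : ℓ ^ (r + 1) * m / ℓ = ℓ ^ r * m := by
        rw [pow_succ, mul_assoc, mul_comm ℓ m, ← mul_assoc, Nat.mul_div_cancel _ hℓ.pos]
      rw [hdiv] at hrel
      have e1 : ℓ ^ (r + 1) * m * ℓ = ℓ ^ (r + 2) * m := by ring
      rw [e1, ih (r + 1) (by omega), ih r (by omega)] at hrel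
      rw [prime_pow_succ_succ e h hℓ r]
      linear_combination hrel

include h h1 in
theorem mul_of_coprime : ∀ m n : ℕ, m.Coprime n → a (m * n) = a m * a n := by
  intro m
  induction m using Nat.strong_induction_on with
  | _ m ih =>
    intro n hmn
    rcases Nat.eq_zero_or_pos m with hm0 | hmpos
    · subst hm0
      have hn1 : n = 1 := by simpa using hmn
      subst hn1
      simp [h1]
    rcases Nat.eq_or_lt_of_le hmpos with hm1 | hm1
    · rw [← hm1]; simp [h1]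
    · obtain ⟨ℓ, hℓ, hℓm⟩ := Nat.exists_prime_and_dvd (by omega : m ≠ 1)
      obtain ⟨r, m', hm', rfl⟩ := Nat.exists_eq_pow_mul_and_not_dvd (by omega : m ≠ 0) ℓ hℓ.ne_one
      have hr : r ≠ 0 := by
        rintro rfl
        rw [pow_zero, one_mul] at hℓm
        exact hm' hℓm
      have hm'pos : 0 < m' := by
        rcases Nat.eq_zero_or_pos m' with h0 | h0
        · subst h0; simp at hmpos
        · exact h0
      have hlt : m' < ℓ ^ r * m' := by
        have : 2 ≤ ℓ ^ r := by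
          calc 2 ≤ ℓ := hℓ.two_le
            _ = ℓ ^ 1 := (pow_one ℓ).symm
            _ ≤ ℓ ^ r := Nat.pow_le_pow_right hℓ.pos (Nat.pos_of_ne_zero hr)
        nlinarith
      have hcop' : m'.Coprime n := Nat.Coprime.coprime_mul_left hmn
      have hℓn : ¬ ℓ ∣ n := by
        intro hdn
        have hℓm2 : ℓ ∣ ℓ ^ r * m' := Dvd.dvd.mul_right (dvd_pow_self ℓ hr) m'
        have := Nat.eq_one_of_dvd_coprimes hmn hℓm2 hdn
        exact hℓ.ne_one this
      have hℓm'n : ¬ ℓ ∣ m' * n := by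
        intro hd
        rcases (Nat.Prime.dvd_mul hℓ).mp hd with h' | h'
        · exact hm' h'
        · exact hℓn h'
      rw [mul_assoc, prime_pow_mul e h h1 hℓ (m' * n) hℓm'n r, ih m' hlt n hcop',
        prime_pow_mul e h h1 hℓ m' hm' r]
      ring

end Mult

open ModularFormClass in
/-- Part (A) of S49: a cusp form whose `q`-coefficients satisfy the formal Hecke
eigen-relations (in the prelude's `coeffHeckeT`/`coeffHeckeU` form, with arbitrary eigenvalues)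
and with `a₁ = 1` is a normalized eigenform; moreover the eigenvalues are the coefficients. -/
theorem isNormalizedEigenform_of_coeffHecke {N : ℕ}
    (f : CuspForm (CongruenceSubgroup.Gamma0 N) 2) (lam : ℕ → ℂ)
    (h1 : qCoeff f 1 = 1)
    (hT : ∀ ℓ : ℕ, ℓ.Prime → ¬ ℓ ∣ N → ∀ n : ℕ,
      ModularForm.coeffHeckeT 2 ℓ (qCoeff f) n = lam ℓ * qCoeff f n)
    (hU : ∀ q : ℕ, q.Prime → q ∣ N → ∀ n : ℕ,
      ModularForm.coeffHeckeU q (qCoeff f) n = lam q * qCoeff f n) :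
    f.IsNormalizedEigenform ∧ ∀ ℓ : ℕ, ℓ.Prime → lam ℓ = qCoeff f ℓ := by
  classical
  set a : ℕ → ℂ := qCoeff f with ha
  let e : ℕ → ℂ := fun ℓ => if ℓ ∣ N then 0 else (ℓ : ℂ)
  have hrel0 : ∀ ℓ : ℕ, ℓ.Prime → FormalRel a ℓ (e ℓ) (lam ℓ) := by
    intro ℓ hℓ n
    by_cases hN : ℓ ∣ N
    · have := hU ℓ hℓ hN n
      rw [ModularForm.coeffHeckeU_apply] at this
      simp only [e, if_pos hN, zero_mul, ite_self, add_zero]
      exact this
    · have := hT ℓ hℓ hN n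
      rw [ModularForm.coeffHeckeT_apply] at this
      simp only [e, if_neg hN]
      have h21 : ((ℓ : ℂ) ^ ((2 : ℤ) - 1)) = (ℓ : ℂ) := by norm_num
      rw [h21] at this
      exact this
  have hlam : ∀ ℓ : ℕ, ℓ.Prime → lam ℓ = a ℓ := fun ℓ hℓ => (hrel0 ℓ hℓ).lam_eq hℓ h1
  have hrel : ∀ ℓ : ℕ, ℓ.Prime → FormalRel a ℓ (e ℓ) (a ℓ) := by
    intro ℓ hℓ
    rw [← hlam ℓ hℓ]; exact hrel0 ℓ hℓ
  refine ⟨⟨h1, mul_of_coprime e hrel h1, ?_, ?_⟩, hlam⟩
  · intro p r hp hpN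
    have := prime_pow_succ_succ e hrel hp r
    simp only [e, if_neg hpN] at this
    exact this
  · intro p r hp hpN
    have := prime_pow_succ_succ e hrel hp r
    simp only [e, if_pos hpN, zero_mul, sub_zero] at this
    exact this

open ModularFormClass in
/-- Companion to `isNormalizedEigenform_of_coeffHecke`: if `a₁ = 0` then all `aₙ`, `n ≥ 1`,
vanish. -/
theorem qCoeff_eq_zero_of_coeffHecke {N : ℕ}
    (f : CuspForm (CongruenceSubgroup.Gamma0 N) 2) (lam : ℕ → ℂ)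
    (h1 : qCoeff f 1 = 0)
    (hT : ∀ ℓ : ℕ, ℓ.Prime → ¬ ℓ ∣ N → ∀ n : ℕ,
      ModularForm.coeffHeckeT 2 ℓ (qCoeff f) n = lam ℓ * qCoeff f n)
    (hU : ∀ q : ℕ, q.Prime → q ∣ N → ∀ n : ℕ,
      ModularForm.coeffHeckeU q (qCoeff f) n = lam q * qCoeff f n) :
    ∀ n : ℕ, 1 ≤ n → qCoeff f n = 0 := by
  classical
  let e : ℕ → ℂ := fun ℓ => if ℓ ∣ N then 0 else (ℓ : ℂ)
  apply eq_zero_of_one_eq_zero e lam _ h1
  intro ℓ hℓ n
  by_cases hN : ℓ ∣ N
  · have := hU ℓ hℓ hN n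
    rw [ModularForm.coeffHeckeU_apply] at this
    simp only [e, if_pos hN, zero_mul, ite_self, add_zero]
    exact this
  · have := hT ℓ hℓ hN n
    rw [ModularForm.coeffHeckeT_apply] at this
    simp only [e, if_neg hN]
    have h21 : ((ℓ : ℂ) ^ ((2 : ℤ) - 1)) = (ℓ : ℂ) := by norm_num
    rw [h21] at this
    exact this

end Fermat.Agent.H4
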