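/-
helper20: the Deligne–Serre lifting lemma for weight-2 cusp forms on Gamma0(N) (statement S49).
-/
import Mathlib
import Fermat.Prelude.Def_CuspForm_HeckeAlgebra
import Fermat.Prelude.Def_CuspForm_IntegralStructure
import Fermat.Prelude.Def_CuspForm_IntegralLattice
import Fermat.Prelude.Def_FormalHecke_Eigensystem
import Fermat.Prelude.Thm_CuspForm_intLattice_fg
import Fermat.Prelude.Thm_CuspForm_mem_intLattice_of_mem_heckeAlgebra
import Fermat.Prelude.Thm_ModularFormClass_qCoeff_heckeT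
import Fermat.Prelude.Thm_ModularFormClass_qCoeff_heckeU
import Fermat.Prelude.Thm_CongruenceSubgroup_one_mem_strictPeriods_Gamma0
import Fermat.Agent.Lib.H20_CommonEigen
import Fermat.Agent.Lib.H4_FormalEigen

set_option autoImplicit false

namespace Fermat.Agent.H20

open ModularFormClass CongruenceSubgroup UpperHalfPlane EisensteinWeightOne

theorem isIntegral_eigenvalue_of_lattice {K : Type*} [Field K] {V : Type*} [AddCommGroup V]
    [Module K V] [FiniteDimensional K V]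
    (t : Module.End K V) (L : Submodule ℤ V) (hLfg : L.FG)
    (hspan : Submodule.span K (L : Set V) = ⊤) (hL : ∀ x ∈ L, t x ∈ L)
    {v : V} (hv : v ≠ 0) {μ : K} (hμ : t v = μ • v) : IsIntegral ℤ μ := by
  set u : Module.End K V := t - μ • (1 : Module.End K V) with hu
  have hu_apply : ∀ x, u x = t x - μ • x := by
    intro x; simp [hu]
  set R : Submodule K V := LinearMap.range u with hR
  set N' : Submodule ℤ (V ⧸ R) := L.map (R.mkQ.restrictScalars ℤ) with hN'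
  have hfg : N'.FG := hLfg.map _
  have hne : N' ≠ ⊥ := by
    intro hbot
    have hle : (L : Set V) ⊆ R := by
      intro x hx
      have h1 : R.mkQ x ∈ N' := ⟨x, hx, rfl⟩
      rw [hbot, Submodule.mem_bot] at h1
      exact (Submodule.Quotient.mk_eq_zero R).mp h1
    have htop : R = ⊤ := by
      rw [eq_top_iff, ← hspan]
      exact Submodule.span_le.mpr hle
    have hsurj : Function.Surjective u := LinearMap.range_eq_top.mp htop
    have hinj : Function.Injective u := LinearMap.injective_iff_surjective.mpr hsurj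
    have h0 : u v = 0 := by rw [hu_apply, hμ, sub_self]
    exact hv (hinj (by rw [h0, map_zero]))
  refine isIntegral_of_smul_mem_submodule N' hne hfg μ ?_
  rintro _ ⟨x, hx, rfl⟩
  refine ⟨t x, hL x hx, ?_⟩
  show R.mkQ (t x) = μ • R.mkQ x
  rw [← map_smul, ← sub_eq_zero, ← map_sub]
  exact (Submodule.Quotient.mk_eq_zero R).mpr ⟨x, hu_apply x⟩


/-! ### congruences mod 3 -/

theorem three_dvd_natCast_sub_chiNegThree (ℓ : ℕ) : (3 : ℤ) ∣ (ℓ : ℤ) - chiNegThree ℓ := by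
  unfold chiNegThree
  have h := Nat.mod_lt ℓ (show 0 < 3 by norm_num)
  have h2 := Nat.div_add_mod ℓ 3
  split_ifs with h1 h3
  · omega
  · omega
  · omega

theorem e1Chi3In_int_eq : e1Chi3In ℤ = 1 + PowerSeries.C (3 : ℤ) *
    PowerSeries.mk (fun n => if n = 0 then 0 else 2 * sigmaChi n) := by
  ext n
  simp only [e1Chi3In, e1Chi3, PowerSeries.coeff_map, PowerSeries.coeff_mk, map_add,
    PowerSeries.coeff_C_mul, PowerSeries.coeff_one]
  by_cases hn : n = 0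
  · simp [hn]
  · simp [hn]; ring

theorem three_dvd_bridgeProduct_coeff_sub (a : ℕ → ℤ) (n : ℕ) :
    (3 : ℤ) ∣ (PowerSeries.coeff n (bridgeProduct a)) - a n := by
  unfold bridgeProduct
  rw [e1Chi3In_int_eq, mul_add, mul_one, map_add, PowerSeries.coeff_mk, add_sub_cancel_left,
    ← mul_assoc, mul_comm _ (PowerSeries.C (3 : ℤ)), mul_assoc, PowerSeries.coeff_C_mul]
  exact dvd_mul_right _ _


variable {N : ℕ} {k : ℤ}

theorem qCoeff_add (f g : CuspForm (Gamma0 N) k) (n : ℕ) :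
    qCoeff ⇑(f + g) n = qCoeff ⇑f n + qCoeff ⇑g n := by
  simp only [qCoeff, FunLike.coe_add]
  rw [ModularForm.qExpansion_add one_pos (one_mem_strictPeriods_Gamma0 N) f g, map_add]

theorem qCoeff_smul (c : ℂ) (f : CuspForm (Gamma0 N) k) (n : ℕ) :
    qCoeff ⇑(c • f) n = c * qCoeff ⇑f n := by
  have h1 : ⇑(c • f) = c • ⇑f := by
    ext z
    simp
  simp only [qCoeff, h1]
  rw [ModularForm.qExpansion_smul one_pos (one_mem_strictPeriods_Gamma0 N) c f]
  simp

/-- The `n`-th `q`-coefficient as a linear functional on cusp forms. -/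
noncomputable def qCoeffLin (N : ℕ) (k : ℤ) (n : ℕ) : CuspForm (Gamma0 N) k →ₗ[ℂ] ℂ where
  toFun f := qCoeff ⇑f n
  map_add' f g := qCoeff_add f g n
  map_smul' c f := by simpa using qCoeff_smul c f n

@[simp] theorem qCoeffLin_apply (n : ℕ) (f : CuspForm (Gamma0 N) k) :
    qCoeffLin N k n f = qCoeff ⇑f n := rfl

theorem qCoeff_zero_eq_zero (f : CuspForm (Gamma0 N) k) : qCoeff ⇑f 0 = 0 :=
  CuspFormClass.qExpansion_coeff_zero f one_pos (one_mem_strictPeriods_Gamma0 N)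

theorem eq_zero_of_forall_qCoeff (f : CuspForm (Gamma0 N) k)
    (h : ∀ n : ℕ, qCoeff ⇑f n = 0) : f = 0 := by
  have hq : qExpansion 1 ⇑f = 0 := by
    ext n
    simpa [qCoeff] using h n
  have hcusp : Fact (IsCusp OnePoint.infty ((Gamma0 N : Subgroup (GL (Fin 2) ℝ)))) :=
    ⟨Subgroup.isCusp_of_mem_strictPeriods one_pos (one_mem_strictPeriods_Gamma0 N)⟩
  have h0 : (⇑f : ℍ → ℂ) = 0 :=
    (qExpansion_eq_zero_iff one_pos
      (SlashInvariantFormClass.periodic_comp_ofComplex f (one_mem_strictPeriods_Gamma0 N))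
      (CuspFormClass.holo f)
      ((CuspFormClass.zero_at_infty f).isBoundedAtImInfty)).mp hq
  exact DFunLike.coe_injective (h0.trans (by simp))

theorem qCoeff_heckeTLin {p : ℕ} (hp : p.Prime) (hpN : ¬ p ∣ N) (f : CuspForm (Gamma0 N) k)
    (n : ℕ) :
    qCoeff ⇑(CuspForm.heckeTLin k hp hpN f) n =
      qCoeff ⇑f (n * p) + if p ∣ n then (p : ℂ) ^ (k - 1) * qCoeff ⇑f (n / p) else 0 := by
  rw [CuspForm.coe_heckeTLin_apply,
    ModularFormClass.qCoeff_heckeT f (one_mem_strictPeriods_Gamma0 N) hp.ne_zero n]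
  rfl

theorem qCoeff_heckeULin [NeZero N] {p : ℕ} (hpN : p ∣ N) (f : CuspForm (Gamma0 N) k)
    (n : ℕ) :
    qCoeff ⇑(CuspForm.heckeULin k hpN f) n = qCoeff ⇑f (n * p) := by
  have hp0 : p ≠ 0 := by
    rintro rfl
    exact NeZero.ne N (Nat.eq_zero_of_zero_dvd hpN)
  rw [CuspForm.coe_heckeULin_apply,
    ModularFormClass.qCoeff_heckeU f (one_mem_strictPeriods_Gamma0 N) hp0 n]
  rfl

/-! ### forms with all coefficients in `c ℤ` -/

/-- Cusp forms all of whose `q`-coefficients are integer multiples of `c`. -/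
noncomputable def coeffMultiples (N : ℕ) (k : ℤ) (c : ℤ) : AddSubgroup (CuspForm (Gamma0 N) k) where
  carrier := {g | ∀ n : ℕ, ∃ m : ℤ, qCoeff ⇑g n = ((c * m : ℤ) : ℂ)}
  zero_mem' n := ⟨0, by
    have := (qCoeffLin N k n).map_zero
    simpa using this⟩
  add_mem' {f g} hf hg n := by
    obtain ⟨a, ha⟩ := hf n
    obtain ⟨b, hb⟩ := hg n
    exact ⟨a + b, by rw [qCoeff_add, ha, hb]; push_cast; ring⟩
  neg_mem' {f} hf n := by
    obtain ⟨a, ha⟩ := hf n
    refine ⟨-a, ?_⟩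
    have := (qCoeffLin N k n).map_neg f
    simp only [qCoeffLin_apply] at this
    rw [this, ha]; push_cast; ring

theorem mem_coeffMultiples_iff {c : ℤ} {g : CuspForm (Gamma0 N) k} :
    g ∈ coeffMultiples N k c ↔ ∀ n : ℕ, ∃ m : ℤ, qCoeff ⇑g n = ((c * m : ℤ) : ℂ) := Iff.rfl

theorem mem_intLattice_iff' {g : CuspForm (Gamma0 N) k} :
    g ∈ CuspForm.intLattice N k ↔ ∀ n : ℕ, ∃ m : ℤ, qCoeff ⇑g n = (m : ℂ) :=
  P2MW.S_CuspForm_intLattice_fg.W3WsD.mem_intLattice_iff g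

theorem zsmul_mem_coeffMultiples {c : ℤ} {g : CuspForm (Gamma0 N) k}
    (hg : g ∈ CuspForm.intLattice N k) : (c : ℂ) • g ∈ coeffMultiples N k c := by
  intro n
  obtain ⟨m, hm⟩ := mem_intLattice_iff'.mp hg n
  exact ⟨m, by rw [qCoeff_smul, hm]; push_cast; ring⟩

theorem exists_eq_smul_of_mem_coeffMultiples {c : ℤ} (hc : c ≠ 0) {g : CuspForm (Gamma0 N) k}
    (hg : g ∈ coeffMultiples N k c) :
    ∃ g' ∈ CuspForm.intLattice N k, g = (c : ℂ) • g' := by
  have hc' : (c : ℂ) ≠ 0 := by exact_mod_cast hc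
  refine ⟨(c : ℂ)⁻¹ • g, ?_, ?_⟩
  · rw [mem_intLattice_iff']
    intro n
    obtain ⟨m, hm⟩ := hg n
    refine ⟨m, ?_⟩
    rw [qCoeff_smul, hm]
    push_cast
    field_simp
  · rw [smul_smul, mul_inv_cancel₀ hc', one_smul]

theorem heckeAlgebra_apply_mem_coeffMultiples [NeZero N] {c : ℤ} (hc : c ≠ 0) (hk : 1 ≤ k)
    {S : Set ℕ} {t : Module.End ℂ (CuspForm (Gamma0 N) k)} (ht : t ∈ CuspForm.heckeAlgebra N k S)
    {g : CuspForm (Gamma0 N) k} (hg : g ∈ coeffMultiples N k c) :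
    t g ∈ coeffMultiples N k c := by
  obtain ⟨g', hg', rfl⟩ := exists_eq_smul_of_mem_coeffMultiples hc hg
  rw [map_smul]
  exact zsmul_mem_coeffMultiples (CuspForm.mem_intLattice_of_mem_heckeAlgebra hk ht hg')


/-! ### the congruence ideal -/

section CongrIdeal

variable [NeZero N]

/-- The ideal of Hecke operators `t` such that all `q`-coefficients of `t f` are divisible
by `3`. -/
noncomputable def congrIdeal (N : ℕ) [NeZero N] (f : CuspForm (Gamma0 N) 2) :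
    Ideal (CuspForm.heckeAlgebra N 2 (∅ : Set ℕ)) where
  carrier := {t | (t : Module.End ℂ (CuspForm (Gamma0 N) 2)) f ∈ coeffMultiples N 2 3}
  zero_mem' := by
    show ((0 : CuspForm.heckeAlgebra N 2 (∅ : Set ℕ)) :
      Module.End ℂ (CuspForm (Gamma0 N) 2)) f ∈ coeffMultiples N 2 3
    rw [ZeroMemClass.coe_zero, LinearMap.zero_apply]
    exact zero_mem _
  add_mem' {s t} hs ht := by
    show ((s + t : CuspForm.heckeAlgebra N 2 (∅ : Set ℕ)) :
      Module.End ℂ (CuspForm (Gamma0 N) 2)) f ∈ coeffMultiples N 2 3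
    rw [Subalgebra.coe_add, LinearMap.add_apply]
    exact add_mem hs ht
  smul_mem' c t ht := by
    show ((c * t : CuspForm.heckeAlgebra N 2 (∅ : Set ℕ)) :
      Module.End ℂ (CuspForm (Gamma0 N) 2)) f ∈ coeffMultiples N 2 3
    rw [Subalgebra.coe_mul, Module.End.mul_apply]
    exact heckeAlgebra_apply_mem_coeffMultiples (by norm_num) (by norm_num) c.2 ht

theorem mem_congrIdeal_iff {f : CuspForm (Gamma0 N) 2}
    {t : CuspForm.heckeAlgebra N 2 (∅ : Set ℕ)} :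
    t ∈ congrIdeal N f ↔
      (t : Module.End ℂ (CuspForm (Gamma0 N) 2)) f ∈ coeffMultiples N 2 3 := Iff.rfl

theorem congrIdeal_isPrime {f : CuspForm (Gamma0 N) 2} (hf : f ∈ CuspForm.intLattice N 2)
    (H3 : ∀ t : CuspForm.heckeAlgebra N 2 (∅ : Set ℕ), ∃ c : ℤ,
      (t : Module.End ℂ (CuspForm (Gamma0 N) 2)) f - (c : ℂ) • f ∈ coeffMultiples N 2 3)
    (H4 : ∀ c : ℤ, (c : ℂ) • f ∈ coeffMultiples N 2 3 → (3 : ℤ) ∣ c) :
    (congrIdeal N f).IsPrime := by
  have hmul : ∀ c : ℤ, (3 : ℤ) ∣ c → (c : ℂ) • f ∈ coeffMultiples N 2 3 := by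
    rintro c ⟨m, rfl⟩
    have h1 : (((3 * m : ℤ) : ℂ)) • f = ((3 : ℤ) : ℂ) • (((m : ℤ) : ℂ) • f) := by
      rw [smul_smul]; push_cast; rfl
    rw [h1]
    apply zsmul_mem_coeffMultiples
    have : ((m : ℤ) : ℂ) • f = m • f := by
      rw [Int.cast_smul_eq_zsmul]
    rw [this]
    exact (CuspForm.intLattice N 2).smul_mem m hf
  refine ⟨?_, ?_⟩
  · intro htop
    have h1 : (1 : CuspForm.heckeAlgebra N 2 (∅ : Set ℕ)) ∈ congrIdeal N f := by
      rw [htop]; trivial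
    rw [mem_congrIdeal_iff] at h1
    have h2 : ((1 : ℤ) : ℂ) • f ∈ coeffMultiples N 2 3 := by
      simpa using h1
    have := H4 1 h2
    omega
  · intro s t hst
    obtain ⟨c, hc⟩ := H3 s
    obtain ⟨c', hc'⟩ := H3 t
    rw [mem_congrIdeal_iff] at hst
    -- (s t) f = (c c') f + c' (s f - c f) + s (t f - c' f)
    have hkey : ((c * c' : ℤ) : ℂ) • f ∈ coeffMultiples N 2 3 := by
      have e : ((c * c' : ℤ) : ℂ) • f =
          ((s * t : CuspForm.heckeAlgebra N 2 (∅ : Set ℕ)) :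
            Module.End ℂ (CuspForm (Gamma0 N) 2)) f
          - (c' : ℂ) • ((s : Module.End ℂ (CuspForm (Gamma0 N) 2)) f - (c : ℂ) • f)
          - (s : Module.End ℂ (CuspForm (Gamma0 N) 2))
              ((t : Module.End ℂ (CuspForm (Gamma0 N) 2)) f - (c' : ℂ) • f) := by
        rw [Subalgebra.coe_mul, Module.End.mul_apply, map_sub, map_smul, smul_sub, smul_smul]
        push_cast
        rw [mul_comm (c' : ℂ) (c : ℂ)]
        abel
      rw [e]
      refine sub_mem (sub_mem hst ?_) ?_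
      · have : (c' : ℂ) • ((s : Module.End ℂ (CuspForm (Gamma0 N) 2)) f - (c : ℂ) • f) =
            c' • ((s : Module.End ℂ (CuspForm (Gamma0 N) 2)) f - (c : ℂ) • f) := by
          rw [Int.cast_smul_eq_zsmul]
        rw [this]
        exact zsmul_mem hc c'
      · exact heckeAlgebra_apply_mem_coeffMultiples (by norm_num) (by norm_num) s.2 hc'
    have h3 : (3 : ℤ) ∣ c * c' := H4 _ hkey
    rcases (Int.prime_three.dvd_mul).mp h3 with h | h
    · left
      rw [mem_congrIdeal_iff]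
      have := add_mem hc (hmul c h)
      simpa using this
    · right
      rw [mem_congrIdeal_iff]
      have := add_mem hc' (hmul c' h)
      simpa using this

end CongrIdeal


/-! ### the main data -/

section Main

variable [NeZero N]

theorem heckeTLin_sub_smul_mem_coeffMultiples {f : CuspForm (Gamma0 N) 2} {a b : ℕ → ℤ}
    (hb : ∀ n, (b n : ℂ) = qCoeff ⇑f n) (hab : ∀ n, (3 : ℤ) ∣ b n - a n)
    (heig : FormalHecke.IsEigensystem
      (fun ℓ => if ℓ ∣ N then 0 else ((chiNegThree ℓ : ℤ) : ℤ)) a)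
    {ℓ : ℕ} (hℓ : ℓ.Prime) (hℓN : ¬ ℓ ∣ N) :
    CuspForm.heckeTLin 2 hℓ hℓN f - ((a ℓ : ℤ) : ℂ) • f ∈ coeffMultiples N 2 3 := by
  have hsub : ∀ (g₁ g₂ : CuspForm (Gamma0 N) 2) (n : ℕ),
      qCoeff ⇑(g₁ - g₂) n = qCoeff ⇑g₁ n - qCoeff ⇑g₂ n := fun g₁ g₂ n =>
    (qCoeffLin N 2 n).map_sub g₁ g₂
  intro n
  have hrel := heig.2 ℓ hℓ n
  simp only [if_neg hℓN] at hrel
  have hχ := three_dvd_natCast_sub_chiNegThree ℓ
  have h1 := hab (n * ℓ)
  have h2 := hab n
  have h3 := hab (n / ℓ)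
  rw [mul_comm ℓ n] at hrel
  by_cases hd : ℓ ∣ n
  · rw [if_pos hd] at hrel
    have hdvd : (3 : ℤ) ∣ b (n * ℓ) + (ℓ : ℤ) * b (n / ℓ) - a ℓ * b n := by
      have e : b (n * ℓ) + (ℓ : ℤ) * b (n / ℓ) - a ℓ * b n =
          (b (n * ℓ) - a (n * ℓ)) + (ℓ : ℤ) * (b (n / ℓ) - a (n / ℓ))
            + ((ℓ : ℤ) - chiNegThree ℓ) * a (n / ℓ) - a ℓ * (b n - a n) := by
        linear_combination hrel
      rw [e]
      exact dvd_sub (dvd_add (dvd_add h1 (Dvd.dvd.mul_left h3 _)) (Dvd.dvd.mul_right hχ _))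
        (Dvd.dvd.mul_left h2 _)
    obtain ⟨m, hm⟩ := hdvd
    refine ⟨m, ?_⟩
    rw [hsub, qCoeff_smul, qCoeff_heckeTLin, if_pos hd, ← hb, ← hb, ← hb, ← hm]
    push_cast
    norm_num
  · rw [if_neg hd] at hrel
    have hdvd : (3 : ℤ) ∣ b (n * ℓ) - a ℓ * b n := by
      have e : b (n * ℓ) - a ℓ * b n =
          (b (n * ℓ) - a (n * ℓ)) - a ℓ * (b n - a n) := by
        linear_combination hrel
      rw [e]
      exact dvd_sub h1 (Dvd.dvd.mul_left h2 _)
    obtain ⟨m, hm⟩ := hdvd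
    refine ⟨m, ?_⟩
    rw [hsub, qCoeff_smul, qCoeff_heckeTLin, if_neg hd, ← hb, ← hb, ← hm]
    push_cast
    ring

theorem heckeULin_sub_smul_mem_coeffMultiples {f : CuspForm (Gamma0 N) 2} {a b : ℕ → ℤ}
    (hb : ∀ n, (b n : ℂ) = qCoeff ⇑f n) (hab : ∀ n, (3 : ℤ) ∣ b n - a n)
    (heig : FormalHecke.IsEigensystem
      (fun ℓ => if ℓ ∣ N then 0 else ((chiNegThree ℓ : ℤ) : ℤ)) a)
    {q : ℕ} (hq : q.Prime) (hqN : q ∣ N) :
    CuspForm.heckeULin 2 hqN f - ((a q : ℤ) : ℂ) • f ∈ coeffMultiples N 2 3 := by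
  have hsub : ∀ (g₁ g₂ : CuspForm (Gamma0 N) 2) (n : ℕ),
      qCoeff ⇑(g₁ - g₂) n = qCoeff ⇑g₁ n - qCoeff ⇑g₂ n := fun g₁ g₂ n =>
    (qCoeffLin N 2 n).map_sub g₁ g₂
  intro n
  have hrel := heig.2 q hq n
  simp only [if_pos hqN, zero_mul, add_zero] at hrel
  have h1 := hab (n * q)
  have h2 := hab n
  rw [mul_comm q n] at hrel
  have hdvd : (3 : ℤ) ∣ b (n * q) - a q * b n := by
    have e : b (n * q) - a q * b n =
        (b (n * q) - a (n * q)) - a q * (b n - a n) := by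
      linear_combination hrel
    rw [e]
    exact dvd_sub h1 (Dvd.dvd.mul_left h2 _)
  obtain ⟨m, hm⟩ := hdvd
  refine ⟨m, ?_⟩
  rw [hsub, qCoeff_smul, qCoeff_heckeULin, ← hb, ← hb, ← hm]
  push_cast
  ring

theorem exists_int_sub_mem_coeffMultiples {f : CuspForm (Gamma0 N) 2} {a b : ℕ → ℤ}
    (hb : ∀ n, (b n : ℂ) = qCoeff ⇑f n) (hab : ∀ n, (3 : ℤ) ∣ b n - a n)
    (heig : FormalHecke.IsEigensystem
      (fun ℓ => if ℓ ∣ N then 0 else ((chiNegThree ℓ : ℤ) : ℤ)) a) :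
    ∀ x : Module.End ℂ (CuspForm (Gamma0 N) 2), x ∈ CuspForm.heckeAlgebra N 2 (∅ : Set ℕ) →
      ∃ c : ℤ, x f - (c : ℂ) • f ∈ coeffMultiples N 2 3 := by
  intro x hx
  induction hx using Algebra.adjoin_induction with
  | mem x hx =>
    rcases hx with ⟨ℓ, hℓ, hℓN, -, rfl⟩ | ⟨q, hqN, hq, -, rfl⟩
    · exact ⟨a ℓ, heckeTLin_sub_smul_mem_coeffMultiples hb hab heig hℓ hℓN⟩
    · exact ⟨a q, heckeULin_sub_smul_mem_coeffMultiples hb hab heig hq hqN⟩
  | algebraMap r =>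
    refine ⟨r, ?_⟩
    have : (algebraMap ℤ (Module.End ℂ (CuspForm (Gamma0 N) 2)) r) f - (r : ℂ) • f = 0 := by
      rw [Algebra.algebraMap_eq_smul_one, LinearMap.smul_apply, Module.End.one_apply,
        Int.cast_smul_eq_zsmul, sub_self]
    rw [this]
    exact zero_mem _
  | add x y hx hy ihx ihy =>
    obtain ⟨c, hc⟩ := ihx
    obtain ⟨c', hc'⟩ := ihy
    refine ⟨c + c', ?_⟩
    have e : (x + y) f - ((c + c' : ℤ) : ℂ) • f = (x f - (c : ℂ) • f) + (y f - (c' : ℂ) • f) := by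
      rw [LinearMap.add_apply]
      push_cast
      rw [add_smul]
      abel
    rw [e]
    exact add_mem hc hc'
  | mul x y hx hy ihx ihy =>
    obtain ⟨c, hc⟩ := ihx
    obtain ⟨c', hc'⟩ := ihy
    refine ⟨c * c', ?_⟩
    have e : (x * y) f - ((c * c' : ℤ) : ℂ) • f =
        x (y f - (c' : ℂ) • f) + c' • (x f - (c : ℂ) • f) := by
      rw [Module.End.mul_apply, map_sub, map_smul, ← Int.cast_smul_eq_zsmul ℂ c', smul_sub,
        smul_smul]
      push_cast
      rw [mul_comm (c' : ℂ) (c : ℂ)]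
      abel
    rw [e]
    exact add_mem (heckeAlgebra_apply_mem_coeffMultiples (by norm_num) (by norm_num) hx hc')
      (zsmul_mem hc c')

omit [NeZero N] in
theorem three_dvd_of_smul_mem_coeffMultiples {f : CuspForm (Gamma0 N) 2} {a b : ℕ → ℤ}
    (hb : ∀ n, (b n : ℂ) = qCoeff ⇑f n) (hab : ∀ n, (3 : ℤ) ∣ b n - a n) (ha1 : a 1 = 1)
    (c : ℤ) (hc : (c : ℂ) • f ∈ coeffMultiples N 2 3) : (3 : ℤ) ∣ c := by
  obtain ⟨m, hm⟩ := hc 1
  rw [qCoeff_smul, ← hb] at hm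
  have hm' : c * b 1 = 3 * m := by exact_mod_cast hm
  have h1 := hab 1
  rw [ha1] at h1
  obtain ⟨u, hu⟩ := h1
  refine ⟨m - c * u, ?_⟩
  have : b 1 = 1 + 3 * u := by linarith
  rw [this] at hm'
  linarith

end Main

/-! ### the lifting lemma -/

open CuspForm in
theorem s49_main
    {N : ℕ} [NeZero N] (h : CuspForm.HasIntegralBasis N) {a : ℕ → ℤ}
    (heig : FormalHecke.IsEigensystem
      (fun ℓ => if ℓ ∣ N then 0 else ((chiNegThree ℓ : ℤ) : ℤ)) a)
    (hreal : CuspForm.IsLatticeRealized N a) :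
    ∃ (f : CuspForm (Gamma0 N) 2) (_ : f.IsNormalizedEigenform)
      (𝔪' : Ideal (integralClosure ℤ ℂ)), 𝔪'.IsMaximal ∧
      ((3 : ℕ) : integralClosure ℤ ℂ) ∈ 𝔪' ∧
      ∀ (ℓ : ℕ) (_ : ℓ.Prime) (_ : ¬ ℓ ∣ N),
        ∃ c : integralClosure ℤ ℂ, (c : ℂ) = ModularFormClass.qCoeff f ℓ ∧
          c - (a ℓ : integralClosure ℤ ℂ) ∈ 𝔪' := by
  classical
  obtain ⟨f, hfint, b, hb, hba⟩ := hreal
  have hab : ∀ n, (3 : ℤ) ∣ b n - a n := fun n => by
    have := dvd_add (hba n) (three_dvd_bridgeProduct_coeff_sub a n)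
    simpa using this
  have hfL : f ∈ CuspForm.intLattice N 2 :=
    mem_intLattice_iff'.mpr (fun n => ⟨b n, (hb n).symm⟩)
  -- the lattice spans
  have hsub : CuspForm.qIntegralSet N ⊆ (CuspForm.intLattice N 2 : Set (CuspForm (Gamma0 N) 2)) := by
    intro g hg
    rw [SetLike.mem_coe, mem_intLattice_iff']
    intro n
    obtain ⟨m, hm⟩ := Subring.mem_bot.mp (hg n)
    exact ⟨m, hm.symm⟩
  have hspan : Submodule.span ℂ (CuspForm.intLattice N 2 : Set (CuspForm (Gamma0 N) 2)) = ⊤ := by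
    rw [eq_top_iff, ← h]
    exact Submodule.span_mono hsub
  have hfg := CuspForm.intLattice_fg N 2
  haveI hfd : FiniteDimensional ℂ (CuspForm (Gamma0 N) 2) := by
    obtain ⟨s, hs⟩ := hfg
    refine Module.finite_def.mpr ⟨s, ?_⟩
    rw [← hspan, ← hs, Submodule.span_span_of_tower]
  -- the prime ideal
  have H3 : ∀ t : CuspForm.heckeAlgebra N 2 (∅ : Set ℕ), ∃ c : ℤ,
      (t : Module.End ℂ (CuspForm (Gamma0 N) 2)) f - (c : ℂ) • f ∈ coeffMultiples N 2 3 :=
    fun t => exists_int_sub_mem_coeffMultiples hb hab heig t.1 t.2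
  have H4 := three_dvd_of_smul_mem_coeffMultiples (N := N) hb hab heig.1
  haveI hprime : (congrIdeal N f).IsPrime := congrIdeal_isPrime hfL H3 H4
  -- the eigenvector
  obtain ⟨ψ, v, hv0, hev, hker⟩ := exists_eigenvector_ker_le_prime
    (K := ℂ) (V := CuspForm (Gamma0 N) 2)
    ((CuspForm.heckeAlgebra N 2 (∅ : Set ℕ)).val.toRingHom) (congrIdeal N f) (by
      intro t ht
      have : t = 0 := Subtype.ext (by simpa using ht)
      rw [this]
      exact zero_mem _)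
  have hev' : ∀ t : CuspForm.heckeAlgebra N 2 (∅ : Set ℕ),
      (t : Module.End ℂ (CuspForm (Gamma0 N) 2)) v = ψ t • v := hev
  -- integrality
  have hint : ∀ t : CuspForm.heckeAlgebra N 2 (∅ : Set ℕ), IsIntegral ℤ (ψ t) := fun t =>
    isIntegral_eigenvalue_of_lattice (t : Module.End ℂ (CuspForm (Gamma0 N) 2))
      (CuspForm.intLattice N 2) hfg hspan
      (fun x hx => CuspForm.mem_intLattice_of_mem_heckeAlgebra (by norm_num) t.2 hx) hv0 (hev' t)
  -- the character with values in the integral closure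
  let ψ' : CuspForm.heckeAlgebra N 2 (∅ : Set ℕ) →+* integralClosure ℤ ℂ :=
    ψ.codRestrict (integralClosure ℤ ℂ) hint
  have hψ' : ∀ t, ((ψ' t : integralClosure ℤ ℂ) : ℂ) = ψ t := fun t => rfl
  letI : Algebra (CuspForm.heckeAlgebra N 2 (∅ : Set ℕ)) (integralClosure ℤ ℂ) := ψ'.toAlgebra
  haveI : Algebra.IsIntegral (CuspForm.heckeAlgebra N 2 (∅ : Set ℕ)) (integralClosure ℤ ℂ) :=
    ⟨fun x => (Algebra.IsIntegral.isIntegral (R := ℤ) x).tower_top⟩
  have hkerle : RingHom.ker (algebraMap (CuspForm.heckeAlgebra N 2 (∅ : Set ℕ))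
      (integralClosure ℤ ℂ)) ≤ congrIdeal N f := by
    intro t ht
    apply hker
    rw [RingHom.mem_ker] at ht ⊢
    have : ψ' t = 0 := ht
    rw [← hψ', this]
    rfl
  obtain ⟨Q, hQprime, hQ⟩ :=
    Ideal.exists_ideal_over_prime_of_isIntegral_of_isDomain (S := integralClosure ℤ ℂ)
      (congrIdeal N f) hkerle
  obtain ⟨𝔪', hmax, hle⟩ := Ideal.exists_le_maximal Q hQprime.ne_top
  have hmemQ : ∀ t ∈ congrIdeal N f, ψ' t ∈ 𝔪' := by
    intro t ht
    apply hle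
    rw [← hQ] at ht
    exact ht
  -- normalisation
  let lam : ℕ → ℂ := fun ℓ =>
    if hℓ : ℓ.Prime then
      (if hN : ℓ ∣ N then ψ (CuspForm.heckeAlgebra.U hℓ hN (Set.notMem_empty ℓ))
        else ψ (CuspForm.heckeAlgebra.T hℓ hN (Set.notMem_empty ℓ)))
    else 0
  have hT : ∀ (g : CuspForm (Gamma0 N) 2),
      (∀ t : CuspForm.heckeAlgebra N 2 (∅ : Set ℕ),
        (t : Module.End ℂ (CuspForm (Gamma0 N) 2)) g = ψ t • g) →
      ∀ ℓ : ℕ, ℓ.Prime → ¬ ℓ ∣ N → ∀ n : ℕ,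
      ModularForm.coeffHeckeT 2 ℓ (qCoeff g) n = lam ℓ * qCoeff g n := by
    intro g hg ℓ hℓ hN n
    have h1 := hg (CuspForm.heckeAlgebra.T hℓ hN (Set.notMem_empty ℓ))
    rw [CuspForm.heckeAlgebra.coe_T] at h1
    have h2 := congrArg (fun x : CuspForm (Gamma0 N) 2 => qCoeff ⇑x n) h1
    simp only [qCoeff_smul, qCoeff_heckeTLin] at h2
    simp only [lam, dif_pos hℓ, dif_neg hN]
    rw [ModularForm.coeffHeckeT_apply]
    exact h2
  have hU : ∀ (g : CuspForm (Gamma0 N) 2),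
      (∀ t : CuspForm.heckeAlgebra N 2 (∅ : Set ℕ),
        (t : Module.End ℂ (CuspForm (Gamma0 N) 2)) g = ψ t • g) →
      ∀ q : ℕ, q.Prime → q ∣ N → ∀ n : ℕ,
      ModularForm.coeffHeckeU q (qCoeff g) n = lam q * qCoeff g n := by
    intro g hg q hq hN n
    have h1 := hg (CuspForm.heckeAlgebra.U hq hN (Set.notMem_empty q))
    rw [CuspForm.heckeAlgebra.coe_U] at h1
    have h2 := congrArg (fun x : CuspForm (Gamma0 N) 2 => qCoeff ⇑x n) h1
    simp only [qCoeff_smul, qCoeff_heckeULin] at h2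
    simp only [lam, dif_pos hq, dif_pos hN]
    rw [ModularForm.coeffHeckeU_apply]
    exact h2
  have ha1 : qCoeff v 1 ≠ 0 := by
    intro h0
    apply hv0
    apply eq_zero_of_forall_qCoeff
    intro n
    rcases Nat.eq_zero_or_pos n with rfl | hn
    · exact qCoeff_zero_eq_zero v
    · exact Fermat.Agent.H4.qCoeff_eq_zero_of_coeffHecke v lam h0 (hT v hev') (hU v hev') n hn
  set g : CuspForm (Gamma0 N) 2 := (qCoeff v 1)⁻¹ • v with hg
  have hgev : ∀ t : CuspForm.heckeAlgebra N 2 (∅ : Set ℕ),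
      (t : Module.End ℂ (CuspForm (Gamma0 N) 2)) g = ψ t • g := by
    intro t
    rw [hg, map_smul, hev' t, smul_comm]
  have hg1 : qCoeff g 1 = 1 := by
    rw [hg, qCoeff_smul, inv_mul_cancel₀ ha1]
  obtain ⟨hnorm, hlam⟩ :=
    Fermat.Agent.H4.isNormalizedEigenform_of_coeffHecke g lam hg1 (hT g hgev) (hU g hgev)
  refine ⟨g, hnorm, 𝔪', hmax, ?_, ?_⟩
  · -- 3 ∈ 𝔪'
    have h3 : (3 : CuspForm.heckeAlgebra N 2 (∅ : Set ℕ)) ∈ congrIdeal N f := by
      rw [mem_congrIdeal_iff]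
      have e : ((3 : CuspForm.heckeAlgebra N 2 (∅ : Set ℕ)) :
          Module.End ℂ (CuspForm (Gamma0 N) 2)) f = ((3 : ℤ) : ℂ) • f := by
        have e1 : (3 : CuspForm.heckeAlgebra N 2 (∅ : Set ℕ)) =
            ((3 : ℤ) : CuspForm.heckeAlgebra N 2 (∅ : Set ℕ)) := by norm_cast
        rw [e1, SubringClass.coe_intCast, Module.End.intCast_apply, Int.cast_smul_eq_zsmul]
      rw [e]
      exact zsmul_mem_coeffMultiples hfL
    have h3' := hmemQ 3 h3
    have e3 : ψ' 3 = ((3 : ℕ) : integralClosure ℤ ℂ) := by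
      rw [Nat.cast_ofNat]; exact map_ofNat ψ' 3
    rw [← e3]
    exact h3'
  · intro ℓ hℓ hN
    refine ⟨ψ' (CuspForm.heckeAlgebra.T hℓ hN (Set.notMem_empty ℓ)), ?_, ?_⟩
    · rw [hψ', ← hlam ℓ hℓ]
      simp only [lam, dif_pos hℓ, dif_neg hN]
    · have hmem : CuspForm.heckeAlgebra.T hℓ hN (Set.notMem_empty ℓ) -
          ((a ℓ : ℤ) : CuspForm.heckeAlgebra N 2 (∅ : Set ℕ)) ∈ congrIdeal N f := by
        rw [mem_congrIdeal_iff, Subalgebra.coe_sub, SubringClass.coe_intCast,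
          CuspForm.heckeAlgebra.coe_T, LinearMap.sub_apply, Module.End.intCast_apply,
          ← Int.cast_smul_eq_zsmul ℂ]
        exact heckeTLin_sub_smul_mem_coeffMultiples hb hab heig hℓ hN
      have h5 := hmemQ _ hmem
      rw [map_sub, map_intCast] at h5
      exact h5


end Fermat.Agent.H20
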