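import Mathlib
import Fermat.Prelude.Def_FLTPrelim_Modularity
import Fermat.Prelude.Def_CuspForm_HeckeAlgebra
import Fermat.Prelude.Def_CuspForm_IntegralStructure
import Fermat.Prelude.Def_CuspForm_IntegralLattice
import Fermat.Prelude.Thm_CongruenceSubgroup_one_mem_strictPeriods_Gamma0
import Fermat.Prelude.Thm_ModularForm_sturm_bound_Gamma0
import Fermat.Prelude.Thm_ModularFormClass_qCoeff_heckeT
import Fermat.Prelude.Thm_ModularFormClass_qCoeff_heckeU
import Fermat.Prelude.Thm_CuspForm_intLattice_fg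

/-!
# q-expansion glue for cusp forms on `Γ₀(N)` (helper3)

Everything is stated for `ModularFormClass.qCoeff` (the prelude's `n`-th `q`-expansion coefficient
at width `1`) of cusp forms on `Γ₀(N)`.
-/

set_option autoImplicit false

open CuspForm ModularFormClass UpperHalfPlane ModularForm

namespace Fermat.Agent.H3

variable {N : ℕ} {k : ℤ}

local notation "Γ₀(" N ")" => CongruenceSubgroup.Gamma0 N

theorem h3_one_mem_strictPeriods (N : ℕ) :
    (1 : ℝ) ∈ (Subgroup.map (Matrix.SpecialLinearGroup.mapGL ℝ) Γ₀(N)).strictPeriods :=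
  CongruenceSubgroup.one_mem_strictPeriods_Gamma0 N

/-- The constant term of a cusp form vanishes. -/
theorem h3_qCoeff_zero_index (f : CuspForm Γ₀(N) k) : qCoeff ⇑f 0 = 0 :=
  CuspFormClass.qExpansion_coeff_zero (h := 1) f one_pos (h3_one_mem_strictPeriods N)

theorem h3_qCoeff_add (f g : CuspForm Γ₀(N) k) (n : ℕ) :
    qCoeff ⇑(f + g) n = qCoeff ⇑f n + qCoeff ⇑g n := by
  simp only [qCoeff, FunLike.coe_add]
  rw [ModularForm.qExpansion_add one_pos (h3_one_mem_strictPeriods N) f g, map_add]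

theorem h3_qCoeff_zero (n : ℕ) : qCoeff ⇑(0 : CuspForm Γ₀(N) k) n = 0 := by
  simp only [qCoeff, FunLike.coe_zero]
  rw [UpperHalfPlane.qExpansion_zero, map_zero]

theorem h3_qCoeff_smul (c : ℂ) (f : CuspForm Γ₀(N) k) (n : ℕ) :
    qCoeff ⇑(c • f) n = c * qCoeff ⇑f n := by
  have h1 : ⇑(c • f) = c • ⇑f := by
    ext z
    simp
  simp only [qCoeff, h1]
  rw [ModularForm.qExpansion_smul one_pos (h3_one_mem_strictPeriods N) c f]
  simp

theorem h3_qCoeff_neg (f : CuspForm Γ₀(N) k) (n : ℕ) :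
    qCoeff ⇑(-f) n = - qCoeff ⇑f n := by
  have : -f = (-1 : ℂ) • f := by simp
  rw [this, h3_qCoeff_smul]; ring

theorem h3_qCoeff_sub (f g : CuspForm Γ₀(N) k) (n : ℕ) :
    qCoeff ⇑(f - g) n = qCoeff ⇑f n - qCoeff ⇑g n := by
  rw [sub_eq_add_neg, h3_qCoeff_add, h3_qCoeff_neg, sub_eq_add_neg]

/-- `n`-th `q`-coefficient as a `ℂ`-linear functional on cusp forms. -/
noncomputable def h3_qCoeffLin (N : ℕ) (k : ℤ) (n : ℕ) : CuspForm Γ₀(N) k →ₗ[ℂ] ℂ where
  toFun f := qCoeff ⇑f n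
  map_add' f g := h3_qCoeff_add f g n
  map_smul' c f := by simpa using h3_qCoeff_smul c f n

@[simp] theorem h3_qCoeffLin_apply (n : ℕ) (f : CuspForm Γ₀(N) k) :
    h3_qCoeffLin N k n f = qCoeff ⇑f n := rfl

/-- `q`-expansion principle: a cusp form on `Γ₀(N)` all of whose `q`-coefficients vanish is zero. -/
theorem h3_eq_zero_of_qCoeff_eq_zero [NeZero N] (f : CuspForm Γ₀(N) k)
    (h : ∀ n : ℕ, qCoeff ⇑f n = 0) : f = 0 := by
  have hmf : (CuspForm.toModularFormₗ f : ModularForm Γ₀(N) k) = 0 := by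
    refine ModularForm.sturm_bound_Gamma0 N _ fun n _ ↦ ?_
    exact h n
  apply CuspForm.toModularFormₗ_injective
  rw [hmf, map_zero]

theorem h3_eq_of_qCoeff_eq [NeZero N] (f g : CuspForm Γ₀(N) k)
    (h : ∀ n : ℕ, qCoeff ⇑f n = qCoeff ⇑g n) : f = g := by
  rw [← sub_eq_zero]
  apply h3_eq_zero_of_qCoeff_eq_zero
  intro n
  rw [h3_qCoeff_sub, h n, sub_self]

/-- Sturm truncation, `ℂ`-linear version. -/
noncomputable def h3_trunc (N : ℕ) (k : ℤ) :
    CuspForm Γ₀(N) k →ₗ[ℂ] (Fin ((k * (Γ₀(N)).index).toNat / 12 + 1) → ℂ) where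
  toFun f i := qCoeff ⇑f i
  map_add' f g := by
    funext i
    exact h3_qCoeff_add f g i
  map_smul' c f := by
    funext i
    simpa using h3_qCoeff_smul c f i

theorem h3_trunc_injective (N : ℕ) [NeZero N] (k : ℤ) : Function.Injective (h3_trunc N k) := by
  refine (injective_iff_map_eq_zero _).mpr fun f hf ↦ ?_
  have hmf : (CuspForm.toModularFormₗ f : ModularForm Γ₀(N) k) = 0 := by
    refine ModularForm.sturm_bound_Gamma0 N _ fun n hn ↦ ?_
    have := congrFun hf ⟨n, Nat.lt_succ_of_le hn⟩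
    exact this
  apply CuspForm.toModularFormₗ_injective
  rw [hmf, map_zero]

/-- Cusp forms on `Γ₀(N)` are finite-dimensional (Sturm bound). -/
theorem h3_finiteDimensional (N : ℕ) [NeZero N] (k : ℤ) :
    FiniteDimensional ℂ (CuspForm Γ₀(N) k) :=
  FiniteDimensional.of_injective (h3_trunc N k) (h3_trunc_injective N k)

/-- `q`-coefficients of `T_ℓ f` (`ℓ ∤ N`), weight `2`. -/
theorem h3_qCoeff_heckeTLin {ℓ : ℕ} (hℓ : ℓ.Prime) (hℓN : ¬ ℓ ∣ N)
    (f : CuspForm Γ₀(N) 2) (n : ℕ) :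
    qCoeff ⇑(CuspForm.heckeTLin 2 hℓ hℓN f) n =
      qCoeff ⇑f (n * ℓ) + if ℓ ∣ n then (ℓ : ℂ) * qCoeff ⇑f (n / ℓ) else 0 := by
  rw [CuspForm.coe_heckeTLin_apply,
    ModularFormClass.qCoeff_heckeT f (h3_one_mem_strictPeriods N) hℓ.ne_zero n,
    ModularForm.coeffHeckeT_apply]
  norm_num

/-- `q`-coefficients of `U_q f` (`q ∣ N`). -/
theorem h3_qCoeff_heckeULin [NeZero N] {q : ℕ} (hq : q.Prime) (hqN : q ∣ N)
    (f : CuspForm Γ₀(N) 2) (n : ℕ) :
    qCoeff ⇑(CuspForm.heckeULin 2 hqN f) n = qCoeff ⇑f (n * q) := by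
  rw [CuspForm.coe_heckeULin_apply,
    ModularFormClass.qCoeff_heckeU f (h3_one_mem_strictPeriods N) hq.ne_zero n,
    ModularForm.coeffHeckeU_apply]

/-- Membership in the prelude's integral lattice, unfolded. -/
theorem h3_mem_intLattice_iff (f : CuspForm Γ₀(N) k) :
    f ∈ CuspForm.intLattice N k ↔ ∀ n : ℕ, ∃ m : ℤ, qCoeff ⇑f n = (m : ℂ) :=
  P2MW.S_CuspForm_intLattice_fg.W3WsD.mem_intLattice_iff f

/-- The prelude's `qIntegralSet` is the carrier of `intLattice N 2`. -/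
theorem h3_mem_qIntegralSet_iff (f : CuspForm Γ₀(N) 2) :
    f ∈ CuspForm.qIntegralSet N ↔ f ∈ CuspForm.intLattice N 2 := by
  rw [h3_mem_intLattice_iff]
  simp only [CuspForm.qIntegralSet, Set.mem_ofPred_eq, Subring.mem_bot]
  constructor
  · intro h n
    obtain ⟨m, hm⟩ := h n
    exact ⟨m, hm.symm⟩
  · intro h n
    obtain ⟨m, hm⟩ := h n
    exact ⟨m, hm.symm⟩

theorem h3_span_intLattice_eq_top (h : CuspForm.HasIntegralBasis N) :
    Submodule.span ℂ ((CuspForm.intLattice N 2 : Submodule ℤ (CuspForm Γ₀(N) 2)) :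
      Set (CuspForm Γ₀(N) 2)) = ⊤ := by
  have : (CuspForm.qIntegralSet N) =
      ((CuspForm.intLattice N 2 : Submodule ℤ (CuspForm Γ₀(N) 2)) : Set (CuspForm Γ₀(N) 2)) := by
    ext f
    exact h3_mem_qIntegralSet_iff f
  rw [← this]
  exact h

end Fermat.Agent.H3
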